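import Fermat.Agent.S20.Local.Count4

/-!
# S20 / Local / Count6: counting the weights mod 6 from the invertibility of `Vmat` at `ρ`
-/

set_option autoImplicit false

open UpperHalfPlane ModularForm CongruenceSubgroup
open scoped MatrixGroups ModularForm Manifold
open Fermat.Agent.S23

namespace Fermat.Agent.S20.LocalAux

open Fermat.Agent.S20

variable {N : ℕ} [NeZero N]

/-- `ω² = ω - 1` for the primitive sixth root of unity `ω = 1/2 + (√3/2) i`. -/
theorem count6_omega_sq :
    ((1 / 2 : ℂ) + ((Real.sqrt 3 / 2 : ℝ) : ℂ) * Complex.I) ^ 2 =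
      ((1 / 2 : ℂ) + ((Real.sqrt 3 / 2 : ℝ) : ℂ) * Complex.I) - 1 := by
  have h3 : ((Real.sqrt 3 : ℝ) : ℂ) ^ 2 = 3 := by
    rw [← Complex.ofReal_pow, Real.sq_sqrt (by norm_num : (0 : ℝ) ≤ 3)]
    norm_num
  push_cast
  linear_combination (((Real.sqrt 3 : ℝ) : ℂ) ^ 2 / 4) * Complex.I_sq + (-1 / 4 : ℂ) * h3

/-- `ω⁶ = 1`, stated abstractly for any `ω` with `ω² = ω - 1`. -/
theorem count6_pow_six (w : ℂ) (hw : w ^ 2 = w - 1) : w ^ 6 = 1 := by
  have h3 : w ^ 3 = -1 := by
    linear_combination (w + 1) * hw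
  calc w ^ 6 = (w ^ 3) ^ 2 := by ring
    _ = 1 := by rw [h3]; ring

/-- The inverse of `ω ^ k` for `k` even, according to `k mod 6`. -/
theorem count6_inv_pow (w : ℂ) (hw : w ^ 2 = w - 1) (k : ℕ) (hk : Even k) :
    (w ^ k)⁻¹ = (if k % 6 = 0 then (1 : ℂ) else 0) + (if k % 6 = 2 then (1 : ℂ) else 0) * (-w) +
      (if k % 6 = 4 then (1 : ℂ) else 0) * (w - 1) := by
  have h6 : w ^ 6 = 1 := count6_pow_six w hw
  have hk' : k = 6 * (k / 6) + k % 6 := (Nat.div_add_mod k 6).symm
  have hpow : w ^ k = w ^ (k % 6) := by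
    conv_lhs => rw [hk', pow_add, pow_mul, h6, one_pow, one_mul]
  have hcases : k % 6 = 0 ∨ k % 6 = 2 ∨ k % 6 = 4 := by
    obtain ⟨t, ht⟩ := hk
    omega
  rw [hpow]
  rcases hcases with h | h | h
  · rw [h]; simp
  · rw [h]
    simp only [show ¬ ((2 : ℕ) = 0) by norm_num, show ¬ ((2 : ℕ) = 4) by norm_num, if_true,
      if_false, one_mul, zero_mul, add_zero, zero_add]
    apply inv_eq_of_mul_eq_one_right
    linear_combination (-(w + 1)) * hw
  · rw [h]
    simp only [show ¬ ((4 : ℕ) = 0) by norm_num, show ¬ ((4 : ℕ) = 2) by norm_num, if_true,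
      if_false, one_mul, zero_mul, add_zero, zero_add]
    apply inv_eq_of_mul_eq_one_right
    linear_combination (w ^ 3 - w - 1) * hw

theorem count_mod_six_of_det (κ : Fin (psi N) → ℕ) (f : ∀ i, ModularForm (Gam N) (κ i))
    (hdet : (Vmat κ f Fermat.Agent.S24.rho).det ≠ 0) :
    3 * (Finset.univ.filter fun i => κ i % 6 = 0).card =
        psi N + 2 * (Finset.univ.filter fun j => perm N Umat j = j).card ∧
      (Finset.univ.filter fun i => κ i % 6 = 2).card =
        (Finset.univ.filter fun i => κ i % 6 = 4).card := by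
  set w : ℂ := (1 / 2 : ℂ) + ((Real.sqrt 3 / 2 : ℝ) : ℂ) * Complex.I with hw_def
  have hw : w ^ 2 = w - 1 := count6_omega_sq
  have hwre : w.re = 1 / 2 := by simp [hw_def]
  have hwim : w.im = Real.sqrt 3 / 2 := by simp [hw_def]
  have hfix : Umat • Fermat.Agent.S24.rho = Fermat.Agent.S24.rho :=
    Fermat.Agent.S24.ST_smul_rho
  have hden : denom Umat Fermat.Agent.S24.rho = w := denom_Umat_ellRho
  have hev : ∀ i, Even (κ i) := even_of_det_ne_zero κ f _ hdet
  have hsum := sum_eigen_eq_card_fixed (Vmat κ f Fermat.Agent.S24.rho) hdet (perm N Umat)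
    (fun i => (w ^ κ i)⁻¹) (fun i j => by
      have h := Vmat_perm_of_fixed κ f Umat Fermat.Agent.S24.rho hfix i j
      rw [hden] at h
      exact h)
  have hpt : ∀ i, (w ^ κ i)⁻¹ = (if κ i % 6 = 0 then (1 : ℂ) else 0) +
      (if κ i % 6 = 2 then (1 : ℂ) else 0) * (-w) +
      (if κ i % 6 = 4 then (1 : ℂ) else 0) * (w - 1) :=
    fun i => count6_inv_pow w hw (κ i) (hev i)
  simp only [hpt] at hsum
  rw [Finset.sum_add_distrib, Finset.sum_add_distrib, ← Finset.sum_mul, ← Finset.sum_mul,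
    Finset.sum_boole, Finset.sum_boole, Finset.sum_boole] at hsum
  have hpart : (Finset.univ.filter fun i => κ i % 6 = 0).card +
      (Finset.univ.filter fun i => κ i % 6 = 2).card +
      (Finset.univ.filter fun i => κ i % 6 = 4).card = psi N := by
    rw [Finset.card_filter, Finset.card_filter, Finset.card_filter, ← Finset.sum_add_distrib,
      ← Finset.sum_add_distrib]
    have h1 : ∀ i ∈ (Finset.univ : Finset (Fin (psi N))),
        (if κ i % 6 = 0 then 1 else 0) + (if κ i % 6 = 2 then 1 else 0) +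
          (if κ i % 6 = 4 then 1 else 0) = 1 := by
      intro i _
      obtain ⟨t, ht⟩ := hev i
      have hc : κ i % 6 = 0 ∨ κ i % 6 = 2 ∨ κ i % 6 = 4 := by omega
      rcases hc with h | h | h <;> simp [h]
    rw [Finset.sum_congr rfl h1]
    simp
  have hre := congrArg Complex.re hsum
  have him := congrArg Complex.im hsum
  simp only [Complex.add_re, Complex.mul_re, Complex.natCast_re, Complex.natCast_im,
    Complex.neg_re, Complex.neg_im, Complex.sub_re, Complex.sub_im, Complex.one_re,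
    Complex.one_im, Complex.add_im, Complex.mul_im, hwre, hwim] at hre him
  have hs3 : (0 : ℝ) < Real.sqrt 3 := Real.sqrt_pos.mpr (by norm_num)
  have hpartR : (((Finset.univ.filter fun i => κ i % 6 = 0).card : ℝ)) +
      ((Finset.univ.filter fun i => κ i % 6 = 2).card : ℝ) +
      ((Finset.univ.filter fun i => κ i % 6 = 4).card : ℝ) = (psi N : ℝ) := by
    exact_mod_cast hpart
  have h24 : (((Finset.univ.filter fun i => κ i % 6 = 2).card : ℝ)) =
      ((Finset.univ.filter fun i => κ i % 6 = 4).card : ℝ) := by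
    have h0 : ((((Finset.univ.filter fun i => κ i % 6 = 4).card : ℝ)) -
        ((Finset.univ.filter fun i => κ i % 6 = 2).card : ℝ)) * Real.sqrt 3 = 0 := by
      linarith
    rcases mul_eq_zero.mp h0 with h | h
    · linarith
    · exact absurd h hs3.ne'
  refine ⟨?_, by exact_mod_cast h24⟩
  have h3 : (3 : ℝ) * ((Finset.univ.filter fun i => κ i % 6 = 0).card : ℝ) =
      (psi N : ℝ) + 2 * ((Finset.univ.filter fun j => perm N Umat j = j).card : ℝ) := by
    linarith
  exact_mod_cast h3

end Fermat.Agent.S20.LocalAux
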