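import Fermat.Agent.S20.Local.Fixed

/-!
# S20 / Local / Points: invertibility of `Vmat κ f z₀` at `z₀ = i`, at `z₀ = ρ` and at the points
where `E₄ ≠ 0`, `E₆ ≠ 0`.
-/

set_option autoImplicit false

open UpperHalfPlane ModularForm CongruenceSubgroup
open scoped MatrixGroups ModularForm Manifold
open Fermat.Agent.S23

namespace Fermat.Agent.S20.LocalAux

open Fermat.Agent.S20

variable {N : ℕ} [NeZero N]

theorem I_pow_inj_mod (a b : ℕ) (h : Complex.I ^ a = Complex.I ^ b) : a ≡ b [MOD 4] := by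
  have hI : IsPrimitiveRoot Complex.I 4 := Complex.isPrimitiveRoot_I
  have h4 : (4 : ℕ) = orderOf Complex.I := hI.eq_orderOf
  have := (hI.isOfFinOrder (by norm_num)).pow_eq_pow_iff_modEq.mp h
  rwa [← h4] at this

/-- `1/2 + (√3/2) i = exp (2πi/6)`. -/
theorem points_omega_eq_exp :
    ((1 / 2 : ℂ) + (Real.sqrt 3 / 2 : ℝ) * Complex.I) =
      Complex.exp (2 * Real.pi * Complex.I / ((6 : ℕ) : ℂ)) := by
  have h1 : (2 * Real.pi * Complex.I / ((6 : ℕ) : ℂ) : ℂ) =
      ((Real.pi / 3 : ℝ) : ℂ) * Complex.I := by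
    push_cast
    ring
  rw [h1, Complex.exp_mul_I, ← Complex.ofReal_cos, ← Complex.ofReal_sin, Real.cos_pi_div_three,
    Real.sin_pi_div_three]
  push_cast
  ring

theorem omega_pow_inj_mod (a b : ℕ)
    (h : ((1 / 2 : ℂ) + (Real.sqrt 3 / 2 : ℝ) * Complex.I) ^ a =
      ((1 / 2 : ℂ) + (Real.sqrt 3 / 2 : ℝ) * Complex.I) ^ b) : a ≡ b [MOD 6] := by
  have hω : IsPrimitiveRoot ((1 / 2 : ℂ) + (Real.sqrt 3 / 2 : ℝ) * Complex.I) 6 := by
    rw [points_omega_eq_exp]
    exact Complex.isPrimitiveRoot_exp 6 (by norm_num)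
  have h6 : (6 : ℕ) = orderOf ((1 / 2 : ℂ) + (Real.sqrt 3 / 2 : ℝ) * Complex.I) := hω.eq_orderOf
  have := (hω.isOfFinOrder (by norm_num)).pow_eq_pow_iff_modEq.mp h
  rwa [← h6] at this

theorem neg_one_smul' (z : ℍ) : (-1 : SL(2, ℤ)) • z = z := by
  rw [ModularGroup.SL_neg_smul, one_smul]

theorem denom_neg_one (z : ℍ) : denom (-1 : SL(2, ℤ)) z = -1 := by
  rw [ModularGroup.denom_apply]
  simp

/-- `S` fixes `i` (proved directly, independently of the `j`-function files). -/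
theorem points_S_smul_I : ModularGroup.S • UpperHalfPlane.I = UpperHalfPlane.I := by
  rw [UpperHalfPlane.modular_S_smul, UpperHalfPlane.ext_iff, UpperHalfPlane.coe_mk,
    UpperHalfPlane.coe_I]
  apply inv_eq_of_mul_eq_one_right
  rw [neg_mul, Complex.I_mul_I, neg_neg]

theorem points_sqrt_three_sq : ((Real.sqrt 3 : ℝ) : ℂ) ^ 2 = 3 := by
  have h : (Real.sqrt 3 : ℝ) ^ 2 = 3 := Real.sq_sqrt (by norm_num)
  exact_mod_cast h

theorem points_coe_rho :
    ((Fermat.Agent.S24.rho : ℍ) : ℂ) = -1 / 2 + ((Real.sqrt 3 : ℝ) : ℂ) / 2 * Complex.I := by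
  have hρ : ((Fermat.Agent.S24.rho : ℍ) : ℂ) = -1 / 2 + (Real.sqrt 3 / 2 : ℝ) * Complex.I := rfl
  rw [hρ]
  push_cast
  ring

/-- `U = S T` fixes `ρ` (proved directly, independently of the `j`-function files). -/
theorem points_Umat_smul_rho : Umat • Fermat.Agent.S24.rho = Fermat.Agent.S24.rho := by
  unfold Umat
  rw [mul_smul, UpperHalfPlane.modular_T_smul, UpperHalfPlane.modular_S_smul,
    UpperHalfPlane.ext_iff, UpperHalfPlane.coe_mk, UpperHalfPlane.coe_vadd, points_coe_rho]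
  apply inv_eq_of_mul_eq_one_right
  have hs := points_sqrt_three_sq
  push_cast
  linear_combination (-(Complex.I ^ 2) / 4) * hs - (3 / 4 : ℂ) * Complex.I_sq

theorem det_Vmat_I_ne_zero (κ : Fin (psi N) → ℕ) (f : ∀ i, ModularForm (Gam N) (κ i))
    (hfree : IsFreeBasis κ f) : (Vmat κ f UpperHalfPlane.I).det ≠ 0 := by
  have h4 : E₄ UpperHalfPlane.I ≠ 0 :=
    (E₄_ne_zero_or_E₆_ne_zero UpperHalfPlane.I).resolve_right (fun h => h E₆_I)
  refine det_ne_zero_of_fixed κ f hfree UpperHalfPlane.I ModularGroup.S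
    points_S_smul_I 4 (by norm_num) ?_ ?_
  · intro e hdvd he
    exact exists_levelOne_ne_zero_four UpperHalfPlane.I h4 e (by simpa using hdvd) he
  · intro a b hab
    rw [denom_S_I] at hab
    exact I_pow_inj_mod a b hab

theorem det_Vmat_rho_ne_zero (κ : Fin (psi N) → ℕ) (f : ∀ i, ModularForm (Gam N) (κ i))
    (hfree : IsFreeBasis κ f) : (Vmat κ f Fermat.Agent.S24.rho).det ≠ 0 := by
  have h6 : E₆ Fermat.Agent.S24.rho ≠ 0 :=
    (E₄_ne_zero_or_E₆_ne_zero Fermat.Agent.S24.rho).resolve_left (fun h => h E₄_rho)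
  refine det_ne_zero_of_fixed κ f hfree Fermat.Agent.S24.rho Umat
    points_Umat_smul_rho 6 (by norm_num) ?_ ?_
  · intro e hdvd he
    exact exists_levelOne_ne_zero_six Fermat.Agent.S24.rho h6 e (by simpa using hdvd) he
  · intro a b hab
    rw [denom_Umat_ellRho] at hab
    exact omega_pow_inj_mod a b hab

theorem det_Vmat_generic_ne_zero (κ : Fin (psi N) → ℕ) (f : ∀ i, ModularForm (Gam N) (κ i))
    (hfree : IsFreeBasis κ f) (z₀ : ℍ) (h4 : E₄ z₀ ≠ 0) (h6 : E₆ z₀ ≠ 0) :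
    (Vmat κ f z₀).det ≠ 0 := by
  refine det_ne_zero_of_fixed κ f hfree z₀ (-1) (neg_one_smul' z₀) 2 (by norm_num) ?_ ?_
  · intro e hdvd he
    exact exists_levelOne_ne_zero_two z₀ h4 h6 e (by simpa using hdvd) he
  · intro a b hab
    rw [denom_neg_one] at hab
    rw [neg_one_pow_eq_pow_mod_two a, neg_one_pow_eq_pow_mod_two b] at hab
    unfold Nat.ModEq
    rcases Nat.mod_two_eq_zero_or_one a with ha | ha <;>
      rcases Nat.mod_two_eq_zero_or_one b with hb | hb <;>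
      rw [ha, hb] at hab ⊢ <;> norm_num at hab

end Fermat.Agent.S20.LocalAux
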