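import Fermat.Agent.S20.Div

/-!
# S20 / Local / Transport: invertibility of `Vmat κ f z` only depends on the `SL(2,ℤ)`-orbit of
`z`; the zeros of `E₆` (resp. `E₄`) are the orbit of `i` (resp. `ρ`).
-/

set_option autoImplicit false

open UpperHalfPlane ModularForm CongruenceSubgroup
open scoped MatrixGroups ModularForm Manifold
open Fermat.Agent.S23

namespace Fermat.Agent.S20.LocalAux

open Fermat.Agent.S20

variable {N : ℕ} [NeZero N]

/-- Matrix form of the transformation law `Vmat_smul`. -/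
theorem Vmat_smul_eq_diagonal_mul (κ : Fin (psi N) → ℕ) (f : ∀ i, ModularForm (Gam N) (κ i))
    (γ : SL(2, ℤ)) (z : ℍ) :
    Vmat κ f (γ • z) = Matrix.diagonal (fun i => denom γ z ^ (κ i : ℤ)) *
      (Vmat κ f z).submatrix id (perm N γ) := by
  ext i j
  rw [Matrix.diagonal_mul, Matrix.submatrix_apply, id_eq]
  exact Vmat_smul κ f γ z i j

theorem det_Vmat_smul_ne_zero (κ : Fin (psi N) → ℕ) (f : ∀ i, ModularForm (Gam N) (κ i))
    (γ : SL(2, ℤ)) (z : ℍ) (h : (Vmat κ f z).det ≠ 0) : (Vmat κ f (γ • z)).det ≠ 0 := by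
  rw [Vmat_smul_eq_diagonal_mul, Matrix.det_mul, Matrix.det_diagonal, Matrix.det_permute']
  refine mul_ne_zero ?_ (mul_ne_zero ?_ h)
  · rw [Finset.prod_ne_zero_iff]
    intro i _
    exact zpow_ne_zero _ (denom_ne_zero _ _)
  · exact Int.cast_ne_zero.mpr (Units.ne_zero _)

theorem exists_smul_I_of_E₆_eq_zero (z₀ : ℍ) (h : E₆ z₀ = 0) :
    ∃ γ : SL(2, ℤ), γ • UpperHalfPlane.I = z₀ := by
  refine j_inj z₀ UpperHalfPlane.I ?_
  rw [Fermat.Agent.S24.Jfun_I]
  have hΔ : ModularForm.discriminant z₀ ≠ 0 := ModularForm.discriminant_ne_zero z₀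
  have hE : ModularForm.discriminant z₀ = (E₄ z₀ ^ 3 - E₆ z₀ ^ 2) / 1728 :=
    ModularForm.discriminant_eq_E₄_cube_sub_E₆_sq z₀
  rw [h] at hE
  have h4 : E₄ z₀ ^ 3 = 1728 * ModularForm.discriminant z₀ := by
    rw [hE]; ring
  change E₄ z₀ ^ 3 / ModularForm.discriminant z₀ = 1728
  rw [h4, mul_div_assoc, div_self hΔ, mul_one]

theorem exists_smul_rho_of_E₄_eq_zero (z₀ : ℍ) (h : E₄ z₀ = 0) :
    ∃ γ : SL(2, ℤ), γ • Fermat.Agent.S24.rho = z₀ := by
  refine j_inj z₀ Fermat.Agent.S24.rho ?_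
  rw [Fermat.Agent.S24.Jfun_rho]
  change E₄ z₀ ^ 3 / ModularForm.discriminant z₀ = 0
  rw [h]
  simp

end Fermat.Agent.S20.LocalAux
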