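import Fermat.Agent.S20.Div

/-!
# S20 / Local / Comb: linear combinations of the `f i` with level-one coefficients
-/

set_option autoImplicit false

open UpperHalfPlane ModularForm CongruenceSubgroup
open scoped MatrixGroups ModularForm Manifold
open Fermat.Agent.S23

namespace Fermat.Agent.S20.LocalAux

open Fermat.Agent.S20

variable {N : ℕ} [NeZero N]

/-- `exists_mulL1` with a cast of the weight. -/
theorem exists_mulL1_cast {e k K' : ℤ} (h : e + k = K') (a : ModularForm 𝒮ℒ e)
    (f : ModularForm (Gam N) k) : ∃ g : ModularForm (Gam N) K', ∀ z : ℍ, g z = a z * f z := by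
  subst h
  exact exists_mulL1 a f

/-- Linear combinations of the `f i` with level-one coefficients `a i` of weight `K - κ i`:
they are forms of weight `K`, and their conjugates are the corresponding combinations of the
conjugates of the `f i`. -/
theorem exists_comb (κ : Fin (psi N) → ℕ) (f : ∀ i, ModularForm (Gam N) (κ i)) (K : ℤ)
    (a : ∀ i, ModularForm 𝒮ℒ (K - (κ i : ℤ))) :
    ∃ F : ModularForm (Gam N) K, (∀ z : ℍ, F z = ∑ i, a i z * f i z) ∧
      ∀ (j : Fin (psi N)) (z : ℍ), cj F j z = ∑ i, a i z * cj (f i) j z := by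
  have hex : ∀ i, ∃ g : ModularForm (Gam N) K, ∀ z : ℍ, g z = a i z * f i z :=
    fun i => exists_mulL1_cast (sub_add_cancel K (κ i : ℤ)) (a i) (f i)
  choose g hg using hex
  have hsum : ∀ z : ℍ, (∑ i, g i) z = ∑ i, g i z := fun z => sum_apply _ _ _
  refine ⟨∑ i, g i, fun z => ?_, fun j z => ?_⟩
  · rw [hsum z]
    exact Finset.sum_congr rfl fun i _ => hg i z
  · rw [cj_of_eq_sum Finset.univ (∑ i, g i) g hsum j z]
    refine Finset.sum_congr rfl fun i _ => ?_
    exact cj_of_eq_mul (a i) (f i) (g i) (sub_add_cancel K (κ i : ℤ)).symm (hg i) j z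

end Fermat.Agent.S20.LocalAux
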