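import Fermat.Agent.S20.Div

/-!
# S20 / Local / Common: the rows of `Vmat` at a fixed point of `γ` are eigenvectors of the
column permutation `perm N γ`.
-/

set_option autoImplicit false

open UpperHalfPlane ModularForm CongruenceSubgroup
open scoped MatrixGroups ModularForm Manifold
open Fermat.Agent.S23

namespace Fermat.Agent.S20.LocalAux

open Fermat.Agent.S20

variable {N : ℕ} [NeZero N]

/-- If `γ • z₀ = z₀` then row `i` of `Vmat κ f z₀` is an eigenvector of the column permutation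
`perm N γ`, with eigenvalue `(denom γ z₀ ^ κ i)⁻¹`. -/
theorem Vmat_perm_of_fixed (κ : Fin (psi N) → ℕ) (f : ∀ i, ModularForm (Gam N) (κ i))
    (γ : SL(2, ℤ)) (z₀ : ℍ) (hγ : γ • z₀ = z₀) (i j : Fin (psi N)) :
    Vmat κ f z₀ i (perm N γ j) = (denom γ z₀ ^ κ i)⁻¹ * Vmat κ f z₀ i j := by
  have h := Vmat_smul κ f γ z₀ i j
  rw [hγ, zpow_natCast] at h
  have hd : denom γ z₀ ^ κ i ≠ 0 := pow_ne_zero _ (denom_ne_zero _ _)
  rw [h, ← mul_assoc, inv_mul_cancel₀ hd, one_mul]

end Fermat.Agent.S20.LocalAux
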