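import Mathlib

/-!
# S20 / Local / LinAlg: pure linear algebra (no modular forms)

`M` is a square complex matrix whose rows are eigenvectors of a column permutation `σ`:
`M i (σ j) = lam i * M i j`.
-/

set_option autoImplicit false

namespace Fermat.Agent.S20.LocalAux

/-- A matrix with vanishing determinant has a nontrivial linear relation between its rows. -/
theorem exists_rel_of_det_eq_zero {n : ℕ} (M : Matrix (Fin n) (Fin n) ℂ) (h : M.det = 0) :
    ∃ c : Fin n → ℂ, c ≠ 0 ∧ ∀ j, ∑ i, c i * M i j = 0 := by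
  obtain ⟨v, hv, hvM⟩ := Matrix.exists_vecMul_eq_zero_iff.mpr h
  refine ⟨v, hv, fun j => ?_⟩
  have hj := congrFun hvM j
  simpa [Matrix.vecMul, dotProduct] using hj

/-- No row of an invertible matrix vanishes. -/
theorem exists_ne_zero_of_det_ne_zero {n : ℕ} (M : Matrix (Fin n) (Fin n) ℂ) (hdet : M.det ≠ 0)
    (i : Fin n) : ∃ j, M i j ≠ 0 := by
  by_contra hcon
  exact hdet (Matrix.det_eq_zero_of_row_eq_zero i fun j => by_contra fun hj => hcon ⟨j, hj⟩)

/-- Auxiliary claim for `rel_split`: the relation survives multiplication of the coefficients by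
any polynomial expression `∏ b ∈ T, (lam i - b)` in the eigenvalues. -/
theorem linAlg_rel_prod_weight {n : ℕ} (M : Matrix (Fin n) (Fin n) ℂ) (σ : Equiv.Perm (Fin n))
    (lam : Fin n → ℂ) (hM : ∀ i j, M i (σ j) = lam i * M i j) (c : Fin n → ℂ)
    (hc : ∀ j, ∑ i, c i * M i j = 0) (T : Finset ℂ) :
    ∀ j : Fin n, ∑ i, (∏ b ∈ T, (lam i - b)) * c i * M i j = 0 := by
  classical
  induction T using Finset.induction_on with
  | empty =>
    intro j
    simpa using hc j
  | insert b T hb ih =>
    intro j
    have h1 := ih (σ j)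
    have h2 := ih j
    have hterm : ∀ i, (∏ x ∈ insert b T, (lam i - x)) * c i * M i j
        = (∏ x ∈ T, (lam i - x)) * c i * M i (σ j)
          - b * ((∏ x ∈ T, (lam i - x)) * c i * M i j) := by
      intro i
      rw [Finset.prod_insert hb, hM]
      ring
    calc ∑ i, (∏ x ∈ insert b T, (lam i - x)) * c i * M i j
        = ∑ i, ((∏ x ∈ T, (lam i - x)) * c i * M i (σ j)
          - b * ((∏ x ∈ T, (lam i - x)) * c i * M i j)) :=
          Finset.sum_congr rfl fun i _ => hterm i
      _ = ∑ i, (∏ x ∈ T, (lam i - x)) * c i * M i (σ j)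
          - b * ∑ i, (∏ x ∈ T, (lam i - x)) * c i * M i j := by
          rw [Finset.sum_sub_distrib, Finset.mul_sum]
      _ = 0 := by rw [h1, h2]; ring

/-- Splitting a linear relation between the rows according to the eigenvalues. -/
theorem rel_split {n : ℕ} (M : Matrix (Fin n) (Fin n) ℂ) (σ : Equiv.Perm (Fin n))
    (lam : Fin n → ℂ) (hM : ∀ i j, M i (σ j) = lam i * M i j) (c : Fin n → ℂ)
    (hc : ∀ j, ∑ i, c i * M i j = 0) (a : ℂ) (j : Fin n) :
    ∑ i, (if lam i = a then c i else 0) * M i j = 0 := by
  classical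
  have haT : a ∉ (Finset.univ.image lam).erase a := Finset.notMem_erase a _
  have hCne : (∏ b ∈ (Finset.univ.image lam).erase a, (a - b)) ≠ 0 := by
    rw [Finset.prod_ne_zero_iff]
    intro b hb
    rw [sub_ne_zero]
    rintro rfl
    exact haT hb
  have key := linAlg_rel_prod_weight M σ lam hM c hc ((Finset.univ.image lam).erase a) j
  have hw : ∀ i, (∏ b ∈ (Finset.univ.image lam).erase a, (lam i - b)) * c i * M i j
      = (∏ b ∈ (Finset.univ.image lam).erase a, (a - b))
        * ((if lam i = a then c i else 0) * M i j) := by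
    intro i
    by_cases hi : lam i = a
    · rw [if_pos hi, hi]
      ring
    · have hz : ∏ b ∈ (Finset.univ.image lam).erase a, (lam i - b) = 0 := by
        apply Finset.prod_eq_zero (i := lam i)
        · exact Finset.mem_erase.mpr ⟨hi, Finset.mem_image_of_mem _ (Finset.mem_univ _)⟩
        · exact sub_self _
      rw [if_neg hi, hz]
      ring
  have key2 : (∏ b ∈ (Finset.univ.image lam).erase a, (a - b))
      * ∑ i, (if lam i = a then c i else 0) * M i j = 0 := by
    rw [Finset.mul_sum]
    exact (Finset.sum_congr rfl fun i _ => (hw i).symm).trans key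
  exact (mul_eq_zero.mp key2).resolve_left hCne

/-- Trace identity: if `M` is invertible then the sum of the eigenvalues is the number of fixed
points of `σ`. -/
theorem sum_eigen_eq_card_fixed {n : ℕ} (M : Matrix (Fin n) (Fin n) ℂ) (hdet : M.det ≠ 0)
    (σ : Equiv.Perm (Fin n)) (lam : Fin n → ℂ) (hM : ∀ i j, M i (σ j) = lam i * M i j) :
    ∑ i, lam i = ((Finset.univ.filter fun j => σ j = j).card : ℂ) := by
  classical
  have hu : IsUnit M.det := isUnit_iff_ne_zero.mpr hdet
  have h1 : M * (Matrix.of fun j' j => if j' = σ j then (1 : ℂ) else 0)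
      = Matrix.diagonal lam * M := by
    ext i j
    rw [Matrix.mul_apply, Matrix.diagonal_mul]
    simp [hM]
  have h2 : (Matrix.of fun j' j => if j' = σ j then (1 : ℂ) else 0)
      = M⁻¹ * (Matrix.diagonal lam * M) := by
    rw [← h1, ← Matrix.mul_assoc, Matrix.nonsing_inv_mul _ hu, Matrix.one_mul]
  have h3 : Matrix.trace (Matrix.of fun j' j => if j' = σ j then (1 : ℂ) else 0)
      = ∑ i, lam i := by
    rw [h2, Matrix.trace_mul_comm, Matrix.mul_assoc, Matrix.mul_nonsing_inv _ hu, Matrix.mul_one,
      Matrix.trace_diagonal]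
  rw [← h3]
  simp only [Matrix.trace, Matrix.diag_apply, Matrix.of_apply]
  rw [Finset.sum_boole]
  congr 2
  ext j
  simp only [Finset.mem_filter, Finset.mem_univ, true_and]
  exact eq_comm

end Fermat.Agent.S20.LocalAux
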