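import Fermat.Agent.S20.Local.Common
import Fermat.Agent.S20.Local.LinAlg

/-!
# S20 / Local / Count4: counting the weights `≡ 0 mod 4` from the invertibility of `Vmat` at `i`
-/

set_option autoImplicit false

open UpperHalfPlane ModularForm CongruenceSubgroup
open scoped MatrixGroups ModularForm Manifold
open Fermat.Agent.S23

namespace Fermat.Agent.S20.LocalAux

open Fermat.Agent.S20

variable {N : ℕ} [NeZero N]

/-- The automorphy factor of `-1 : SL(2,ℤ)` is `-1`. -/
theorem denom_neg_one_count4 (z : ℍ) : denom ((-1 : SL(2, ℤ)) : GL (Fin 2) ℝ) z = -1 := by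
  have h : (((-1 : SL(2, ℤ)) : GL (Fin 2) ℝ)) = -1 := by
    ext i j
    simp
  rw [h, denom_neg, denom_one]

/-- `S` fixes `i` (proved directly, so that this file does not depend on the `S24` interface). -/
theorem S_smul_I_count4 : ModularGroup.S • UpperHalfPlane.I = UpperHalfPlane.I := by
  rw [UpperHalfPlane.modular_S_smul, UpperHalfPlane.ext_iff, UpperHalfPlane.coe_mk,
    UpperHalfPlane.coe_I, inv_neg, Complex.inv_I, neg_neg]

/-- If `Vmat κ f z` is invertible at some point then all weights are even. -/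
theorem even_of_det_ne_zero (κ : Fin (psi N) → ℕ) (f : ∀ i, ModularForm (Gam N) (κ i))
    (z : ℍ) (hdet : (Vmat κ f z).det ≠ 0) (i : Fin (psi N)) : Even (κ i) := by
  obtain ⟨j, hj⟩ := exists_ne_zero_of_det_ne_zero (Vmat κ f z) hdet i
  have hfix : (-1 : SL(2, ℤ)) • z = z := by
    rw [ModularGroup.SL_neg_smul, one_smul]
  have h := Vmat_perm_of_fixed κ f (-1 : SL(2, ℤ)) z hfix i j
  rw [perm_neg, perm_one, Equiv.Perm.one_apply, denom_neg_one_count4] at h
  by_contra hodd
  rw [Nat.not_even_iff_odd] at hodd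
  rw [hodd.neg_one_pow, inv_neg, inv_one] at h
  apply hj
  have h2 : (2 : ℂ) * Vmat κ f z i j = 0 := by linear_combination h
  exact (mul_eq_zero.mp h2).resolve_left (by norm_num)

theorem count_mod_four_of_det (κ : Fin (psi N) → ℕ) (f : ∀ i, ModularForm (Gam N) (κ i))
    (hdet : (Vmat κ f UpperHalfPlane.I).det ≠ 0) :
    2 * (Finset.univ.filter fun i => κ i % 4 = 0).card =
      psi N + (Finset.univ.filter fun j => perm N ModularGroup.S j = j).card := by
  have hsum := sum_eigen_eq_card_fixed (Vmat κ f UpperHalfPlane.I) hdet (perm N ModularGroup.S)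
    (fun i => (Complex.I ^ κ i)⁻¹) (fun i j => by
      have h := Vmat_perm_of_fixed κ f ModularGroup.S UpperHalfPlane.I
        S_smul_I_count4 i j
      rw [denom_S_I] at h
      exact h)
  have hlam : ∀ i, (Complex.I ^ κ i)⁻¹ = if κ i % 4 = 0 then (1 : ℂ) else -1 := by
    intro i
    obtain ⟨t, ht⟩ := even_of_det_ne_zero κ f UpperHalfPlane.I hdet i
    rw [Complex.I_pow_eq_pow_mod]
    have h4 : κ i % 4 = 0 ∨ κ i % 4 = 2 := by omega
    rcases h4 with h4 | h4
    · rw [h4, if_pos rfl, pow_zero, inv_one]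
    · rw [h4, if_neg (by norm_num), Complex.I_sq, inv_neg, inv_one]
  have hcard : (Finset.univ.filter fun i => κ i % 4 = 0).card +
      (Finset.univ.filter fun i => ¬ κ i % 4 = 0).card = psi N := by
    rw [Finset.card_filter_add_card_filter_not, Finset.card_univ, Fintype.card_fin]
  have hsum2 : (∑ i, (Complex.I ^ κ i)⁻¹) =
      ((Finset.univ.filter fun i => κ i % 4 = 0).card : ℂ) -
        ((Finset.univ.filter fun i => ¬ κ i % 4 = 0).card : ℂ) := by
    rw [Finset.sum_congr rfl (fun i _ => hlam i), Finset.sum_ite, Finset.sum_const,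
      Finset.sum_const, nsmul_eq_mul, nsmul_eq_mul]
    ring
  rw [hsum2] at hsum
  have hC : ((2 * (Finset.univ.filter fun i => κ i % 4 = 0).card : ℕ) : ℂ) =
      ((psi N + (Finset.univ.filter fun j => perm N ModularGroup.S j = j).card : ℕ) : ℂ) := by
    have hcardC : ((Finset.univ.filter fun i => κ i % 4 = 0).card : ℂ) +
        ((Finset.univ.filter fun i => ¬ κ i % 4 = 0).card : ℂ) = (psi N : ℂ) := by
      exact_mod_cast hcard
    push_cast
    linear_combination hsum + hcardC
  exact_mod_cast hC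

end Fermat.Agent.S20.LocalAux
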