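import Fermat.Agent.S20.Local.KeyStepAux

/-!
# S20 / Local / KeyStep: a linear relation between the rows of `Vmat κ f z₀`, supported on indices
`i` for which there is a level-one form of weight `K - κ i` not vanishing at `z₀`, is trivial.
-/

set_option autoImplicit false

open UpperHalfPlane ModularForm CongruenceSubgroup
open scoped MatrixGroups ModularForm Manifold
open Fermat.Agent.S23

namespace Fermat.Agent.S20.LocalAux

open Fermat.Agent.S20

variable {N : ℕ} [NeZero N]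

/-- KEY STEP. -/
theorem key_step (κ : Fin (psi N) → ℕ) (f : ∀ i, ModularForm (Gam N) (κ i))
    (hfree : IsFreeBasis κ f) (z₀ : ℍ) (K : ℤ)
    (c : Fin (psi N) → ℂ) (G : ∀ i, ModularForm 𝒮ℒ (K - (κ i : ℤ)))
    (hG : ∀ i, c i ≠ 0 → G i z₀ ≠ 0)
    (hc : ∀ j, ∑ i, c i * Vmat κ f z₀ i j = 0) : c = 0 := by
  by_cases h6 : E₆ z₀ = 0
  · exact key_step_aux κ f hfree z₀ K 6 E₆ h6 (fun F hF => div_E₆ F z₀ h6 hF) c G hG hc
  by_cases h4 : E₄ z₀ = 0
  · exact key_step_aux κ f hfree z₀ K 4 E₄ h4 (fun F hF => div_E₄ F z₀ h4 hF) c G hG hc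
  obtain ⟨P, hP⟩ := exists_genP z₀
  refine key_step_aux κ f hfree z₀ K 12 P (by rw [hP]; ring) (fun F hF => ?_) c G hG hc
  obtain ⟨g, hg⟩ := div_gen F z₀ h4 h6 hF
  exact ⟨g, fun z => by rw [hg z, hP z]⟩

end Fermat.Agent.S20.LocalAux
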