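import Fermat.Agent.S20.Local.Common
import Fermat.Agent.S20.Local.LinAlg
import Fermat.Agent.S20.Local.KeyStep

/-!
# S20 / Local / Fixed: invertibility of `Vmat κ f z₀` at a fixed point `z₀` of `γ : SL(2,ℤ)`
-/

set_option autoImplicit false

open UpperHalfPlane ModularForm CongruenceSubgroup
open scoped MatrixGroups ModularForm Manifold
open Fermat.Agent.S23

namespace Fermat.Agent.S20.LocalAux

open Fermat.Agent.S20

variable {N : ℕ} [NeZero N]

/-- Uniform statement: `γ` fixes `z₀`, `denom γ z₀` is a root of unity of exact order `m` (only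
the injectivity of its powers modulo `m` is needed), and for every weight `e ≥ 4` divisible by `m`
there is a level-one form of weight `e` not vanishing at `z₀`.  Then `Vmat κ f z₀` is
invertible. -/
theorem det_ne_zero_of_fixed (κ : Fin (psi N) → ℕ) (f : ∀ i, ModularForm (Gam N) (κ i))
    (hfree : IsFreeBasis κ f) (z₀ : ℍ) (γ : SL(2, ℤ)) (hγ : γ • z₀ = z₀) (m : ℕ) (hm : 0 < m)
    (hQ : ∀ e : ℤ, (m : ℤ) ∣ e → 4 ≤ e → ∃ G : ModularForm 𝒮ℒ e, G z₀ ≠ 0)
    (hprim : ∀ a b : ℕ, denom γ z₀ ^ a = denom γ z₀ ^ b → a ≡ b [MOD m]) :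
    (Vmat κ f z₀).det ≠ 0 := by
  intro hdet
  obtain ⟨c, hc0, hc⟩ := exists_rel_of_det_eq_zero (Vmat κ f z₀) hdet
  obtain ⟨i₁, hi₁⟩ := Function.ne_iff.mp hc0
  set lam : Fin (psi N) → ℂ := fun i => (denom γ z₀ ^ κ i)⁻¹ with hlam
  have hM : ∀ i j, Vmat κ f z₀ i (perm N γ j) = lam i * Vmat κ f z₀ i j :=
    fun i j => Vmat_perm_of_fixed κ f γ z₀ hγ i j
  have hsplit := rel_split (Vmat κ f z₀) (perm N γ) lam hM c hc (lam i₁)
  set B : ℕ := κ i₁ + m * (∑ i, κ i + 4) with hB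
  have hkey : ∀ i, lam i = lam i₁ → ((m : ℤ) ∣ (B : ℤ) - (κ i : ℤ)) ∧ 4 ≤ (B : ℤ) - (κ i : ℤ) := by
    intro i hi
    have h1 : denom γ z₀ ^ κ i = denom γ z₀ ^ κ i₁ := inv_injective hi
    have h2 : κ i ≡ κ i₁ [MOD m] := hprim _ _ h1
    have h3 : (m : ℤ) ∣ (κ i₁ : ℤ) - (κ i : ℤ) := (Nat.modEq_iff_dvd.mp h2)
    have h4 : κ i ≤ ∑ i, κ i := Finset.single_le_sum (fun _ _ => Nat.zero_le _) (Finset.mem_univ i)
    have h5 : ∑ i, κ i + 4 ≤ m * (∑ i, κ i + 4) := Nat.le_mul_of_pos_left _ hm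
    constructor
    · have : ((B : ℤ) - (κ i : ℤ)) = ((κ i₁ : ℤ) - (κ i : ℤ)) + (m : ℤ) * ((∑ i, κ i + 4 : ℕ) : ℤ) := by
        rw [hB]; push_cast; ring
      rw [this]
      exact dvd_add h3 (dvd_mul_right _ _)
    · have : κ i + 4 ≤ B := by rw [hB]; omega
      omega
  classical
  let G : ∀ i, ModularForm 𝒮ℒ ((B : ℤ) - (κ i : ℤ)) := fun i =>
    if h : lam i = lam i₁ then Classical.choose (hQ _ (hkey i h).1 (hkey i h).2) else 0
  have hG : ∀ i, (if lam i = lam i₁ then c i else 0) ≠ 0 → G i z₀ ≠ 0 := by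
    intro i hi
    have h : lam i = lam i₁ := by
      by_contra h
      exact hi (if_neg h)
    have : G i = Classical.choose (hQ _ (hkey i h).1 (hkey i h).2) := dif_pos h
    rw [this]
    exact Classical.choose_spec (hQ _ (hkey i h).1 (hkey i h).2)
  have h0 := key_step κ f hfree z₀ (B : ℤ) (fun i => if lam i = lam i₁ then c i else 0) G hG hsplit
  have := congrFun h0 i₁
  simp only [if_true, Pi.zero_apply] at this
  exact hi₁ this

end Fermat.Agent.S20.LocalAux
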