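import Fermat.Agent.S20.Local.LevelOne
import Fermat.Agent.S20.Local.Comb

/-!
# S20 / Local / KeyStepAux: abstract form of the key step
-/

set_option autoImplicit false

open UpperHalfPlane ModularForm CongruenceSubgroup
open scoped MatrixGroups ModularForm Manifold
open Fermat.Agent.S23

namespace Fermat.Agent.S20.LocalAux

open Fermat.Agent.S20

variable {N : ℕ} [NeZero N]

/-- Abstract key step: `P` is a level-one form of weight `w` vanishing at `z₀` such that every
form of weight `K` all of whose conjugates vanish at `z₀` is divisible by `P`.  Then a linear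
relation `c` between the rows of `Vmat κ f z₀`, supported on indices `i` for which the level-one
form `G i` of weight `K - κ i` does not vanish at `z₀`, is trivial. -/
theorem key_step_aux (κ : Fin (psi N) → ℕ) (f : ∀ i, ModularForm (Gam N) (κ i))
    (hfree : IsFreeBasis κ f) (z₀ : ℍ) (K w : ℤ) (P : ModularForm 𝒮ℒ w) (hP : P z₀ = 0)
    (hdiv : ∀ F : ModularForm (Gam N) K, (∀ j, cj F j z₀ = 0) →
      ∃ H : ModularForm (Gam N) (K - w), ∀ z : ℍ, F z = P z * H z)
    (c : Fin (psi N) → ℂ) (G : ∀ i, ModularForm 𝒮ℒ (K - (κ i : ℤ)))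
    (hG : ∀ i, c i ≠ 0 → G i z₀ ≠ 0)
    (hc : ∀ j, ∑ i, c i * Vmat κ f z₀ i j = 0) : c = 0 := by
  -- the first family of coefficients
  set a1 : ∀ i, ModularForm 𝒮ℒ (K - (κ i : ℤ)) := fun i => (c i / G i z₀) • G i with ha1
  have ha1z : ∀ i z, a1 i z = c i / G i z₀ * G i z := fun i z => by
    simp [ha1]
  obtain ⟨F, hF, hFcj⟩ := exists_comb κ f K a1
  -- all conjugates of `F` vanish at `z₀`
  have hF0 : ∀ j, cj F j z₀ = 0 := by
    intro j
    rw [hFcj j z₀, ← hc j]
    refine Finset.sum_congr rfl fun i _ => ?_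
    rw [ha1z]
    by_cases hci : c i = 0
    · simp [hci]
    · rw [div_mul_cancel₀ _ (hG i hci)]
      rfl
  obtain ⟨H, hH⟩ := hdiv F hF0
  obtain ⟨b, hb, -⟩ := hfree (K - w) H
  have hex : ∀ i, ∃ g : ModularForm 𝒮ℒ (K - (κ i : ℤ)), ∀ z : ℍ, g z = P z * b i z :=
    fun i => exists_levelOne_mul (by ring) P (b i)
  choose a2 ha2 using hex
  have hF2 : ∀ z : ℍ, F z = ∑ i, a2 i z * f i z := by
    intro z
    rw [hH z, hb z, Finset.mul_sum]
    refine Finset.sum_congr rfl fun i _ => ?_
    rw [ha2 i z, mul_assoc]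
  have huniq : a1 = a2 := (hfree K F).unique hF hF2
  funext i
  by_contra hci
  have h1 : a1 i z₀ = a2 i z₀ := by rw [huniq]
  rw [ha1z, ha2, hP, zero_mul, div_mul_cancel₀ _ (hG i hci)] at h1
  exact hci h1

end Fermat.Agent.S20.LocalAux
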