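import Fermat.Agent.S20.Div

/-!
# S20 / Local / LevelOne: some level-one forms with prescribed functions
-/

set_option autoImplicit false

open UpperHalfPlane ModularForm CongruenceSubgroup
open scoped MatrixGroups ModularForm Manifold
open Fermat.Agent.S23

namespace Fermat.Agent.S20.LocalAux

open Fermat.Agent.S20

/-- Transport of a level-one form along an equality of weights. -/
theorem exists_levelOne_cast {e e' : ℤ} (h : e = e') (a : ModularForm 𝒮ℒ e) :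
    ∃ g : ModularForm 𝒮ℒ e', ∀ z : ℍ, g z = a z := by
  subst h
  exact ⟨a, fun _ => rfl⟩

/-- Product of two level-one forms. -/
theorem exists_levelOne_mul {w e e' : ℤ} (h : e' = w + e) (P : ModularForm 𝒮ℒ w)
    (b : ModularForm 𝒮ℒ e) : ∃ g : ModularForm 𝒮ℒ e', ∀ z : ℍ, g z = P z * b z := by
  subst h
  exact ⟨P.mul b, fun _ => rfl⟩

/-- The monomials `E₄ ^ a * E₆ ^ b` as level-one forms. -/
theorem exists_E₄_pow_mul_E₆_pow (a b : ℕ) (e : ℤ) (he : e = 4 * (a : ℤ) + 6 * (b : ℤ)) :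
    ∃ G : ModularForm 𝒮ℒ e, ∀ z : ℍ, G z = E₄ z ^ a * E₆ z ^ b := by
  obtain ⟨G, hG⟩ :=
    exists_levelOne_mul (e' := e) (by rw [he]; ring) (ModularForm.pow E₄ a) (ModularForm.pow E₆ b)
  refine ⟨G, fun z => ?_⟩
  rw [hG, ModularForm.coe_pow, ModularForm.coe_pow]
  rfl

/-- The level-one form of weight 12 vanishing at `z₀`. -/
theorem exists_genP (z₀ : ℍ) :
    ∃ P : ModularForm 𝒮ℒ 12,
      ∀ z : ℍ, P z = E₄ z ^ 3 * E₆ z₀ ^ 2 - E₄ z₀ ^ 3 * E₆ z ^ 2 := by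
  obtain ⟨G₁, hG₁⟩ := exists_E₄_pow_mul_E₆_pow 3 0 12 (by norm_num)
  obtain ⟨G₂, hG₂⟩ := exists_E₄_pow_mul_E₆_pow 0 2 12 (by norm_num)
  refine ⟨(E₆ z₀ ^ 2) • G₁ - (E₄ z₀ ^ 3) • G₂, fun z => ?_⟩
  rw [sub_apply, smul_apply, smul_apply, hG₁, hG₂, smul_eq_mul, smul_eq_mul]
  ring

/-- Level-one forms of weight divisible by 4 not vanishing at a point where `E₄ ≠ 0`. -/
theorem exists_levelOne_ne_zero_four (z₀ : ℍ) (h4 : E₄ z₀ ≠ 0) (e : ℤ) (hdvd : (4 : ℤ) ∣ e)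
    (he : 4 ≤ e) : ∃ G : ModularForm 𝒮ℒ e, G z₀ ≠ 0 := by
  obtain ⟨t, rfl⟩ := hdvd
  have ht : (t.toNat : ℤ) = t := Int.toNat_of_nonneg (by omega)
  obtain ⟨G, hG⟩ := exists_E₄_pow_mul_E₆_pow t.toNat 0 (4 * t) (by rw [ht]; simp)
  refine ⟨G, ?_⟩
  rw [hG, pow_zero, mul_one]
  exact pow_ne_zero _ h4

/-- Level-one forms of weight divisible by 6 not vanishing at a point where `E₆ ≠ 0`. -/
theorem exists_levelOne_ne_zero_six (z₀ : ℍ) (h6 : E₆ z₀ ≠ 0) (e : ℤ) (hdvd : (6 : ℤ) ∣ e)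
    (he : 4 ≤ e) : ∃ G : ModularForm 𝒮ℒ e, G z₀ ≠ 0 := by
  obtain ⟨t, rfl⟩ := hdvd
  have ht : (t.toNat : ℤ) = t := Int.toNat_of_nonneg (by omega)
  obtain ⟨G, hG⟩ := exists_E₄_pow_mul_E₆_pow 0 t.toNat (6 * t) (by rw [ht]; simp)
  refine ⟨G, ?_⟩
  rw [hG, pow_zero, one_mul]
  exact pow_ne_zero _ h6

/-- Level-one forms of even weight `≥ 4` not vanishing at a point where `E₄ ≠ 0` and `E₆ ≠ 0`. -/
theorem exists_levelOne_ne_zero_two (z₀ : ℍ) (h4 : E₄ z₀ ≠ 0) (h6 : E₆ z₀ ≠ 0) (e : ℤ)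
    (hdvd : (2 : ℤ) ∣ e) (he : 4 ≤ e) : ∃ G : ModularForm 𝒮ℒ e, G z₀ ≠ 0 := by
  obtain ⟨t, rfl⟩ := hdvd
  have key : ∃ a b : ℕ, 2 * t = 4 * (a : ℤ) + 6 * (b : ℤ) := by
    rcases Int.even_or_odd' t with ⟨s, hs | hs⟩
    · refine ⟨s.toNat, 0, ?_⟩
      have hs' : (s.toNat : ℤ) = s := Int.toNat_of_nonneg (by omega)
      rw [hs']
      omega
    · refine ⟨(s - 1).toNat, 1, ?_⟩
      have hs' : ((s - 1).toNat : ℤ) = s - 1 := Int.toNat_of_nonneg (by omega)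
      rw [hs']
      omega
  obtain ⟨a, b, hab⟩ := key
  obtain ⟨G, hG⟩ := exists_E₄_pow_mul_E₆_pow a b (2 * t) hab
  refine ⟨G, ?_⟩
  rw [hG]
  exact mul_ne_zero (pow_ne_zero _ h4) (pow_ne_zero _ h6)

end Fermat.Agent.S20.LocalAux
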